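/-
S33, block "Layer II_p" (owner helper73): Cech depth of `p`-torsion classes at the residue
characteristic `p`.  Mathlib only.

Think of: `F` the function field of a modular curve over a number field `K'`, `A` the discrete
valuation ring `P ∩ K'` (uniformiser `π`, `p = η π ^ e`), `O` the intersection of the vertical
(Gauss) valuation rings (one of them: good reduction; two of them: nodal reduction), `B1`, `B2`,
`B12` the rings of the two charts and of their intersection.  For `u ≡ 1 mod π` whose divisor is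
divisible by `p`, `I_i = {s : s ^ p * u ∈ B_i}` are the sections of the line bundle `O(D)`,
`p D = div u`.  `Sec u j` says that this line bundle is trivial modulo `π ^ j`.
-/
import Mathlib

set_option autoImplicit false

namespace Fermat.Agent.S33.Cech

/-- The abstract two-chart model over a discrete valuation ring of residue characteristic `p`. -/
structure Data (p : ℕ) (F : Type*) [Field F] where
  /-- the semilocal ring of the vertical valuations -/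
  O : Subring F
  /-- the constants -/
  A : Subring F
  /-- chart 1 -/
  B1 : Subring F
  /-- chart 2 -/
  B2 : Subring F
  /-- the intersection of the charts -/
  B12 : Subring F
  /-- the uniformiser -/
  π : F
  /-- the unit `p / π ^ e` -/
  η : F
  /-- the absolute ramification index -/
  e : ℕ
  A_le1 : A ≤ B1
  A_le2 : A ≤ B2
  B1_le : B1 ≤ B12
  B2_le : B2 ≤ B12
  B12_le : B12 ≤ O
  π_mem : π ∈ A
  π_ne : π ≠ 0
  π_inv : π⁻¹ ∉ O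
  η_mem : η ∈ A
  η_inv : η⁻¹ ∈ A
  η_ne : η ≠ 0
  e_pos : 0 < e
  p_eq : (p : F) = η * π ^ e
  /-- `1 + π O ⊆ Oˣ` -/
  one_add : ∀ z ∈ O, (1 + π * z)⁻¹ ∈ O
  /-- `O / π` is reduced -/
  frob : ∀ z ∈ O, (∃ t ∈ O, z ^ p = π * t) → ∃ t ∈ O, z = π * t
  rootO : ∀ z : F, z ^ p ∈ O → z ∈ O
  /-- the residue field of `A` is perfect -/
  perfect : ∀ c ∈ A, ∃ d ∈ A, ∃ t ∈ O, d ^ p - c = π * t
  satA : ∀ z ∈ O, π * z ∈ A → z ∈ A
  sat1 : ∀ z ∈ O, π * z ∈ B1 → z ∈ B1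
  sat2 : ∀ z ∈ O, π * z ∈ B2 → z ∈ B2
  sat12 : ∀ z ∈ O, π * z ∈ B12 → z ∈ B12
  root1 : ∀ z : F, z ^ p ∈ B1 → z ∈ B1
  root2 : ∀ z : F, z ^ p ∈ B2 → z ∈ B2
  root12 : ∀ z : F, z ^ p ∈ B12 → z ∈ B12
  /-- `B1 / π` is closed under `p`-th roots in `O / π` -/
  pr1 : ∀ c ∈ O, ∀ b ∈ B1, (∃ t ∈ O, c ^ p - b = π * t) → ∃ b' ∈ B1, ∃ t ∈ O, c - b' = π * t
  /-- `B2 / π` is closed under `p`-th roots in `O / π` -/
  pr2 : ∀ c ∈ O, ∀ b ∈ B2, (∃ t ∈ O, c ^ p - b = π * t) → ∃ b' ∈ B2, ∃ t ∈ O, c - b' = π * t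
  /-- the regular functions on the special fibre are constant -/
  h0 : ∀ b1 ∈ B1, ∀ b2 ∈ B2, (∃ t ∈ O, b1 - b2 = π * t) → ∃ c ∈ A, ∃ t ∈ O, b1 - c = π * t

namespace Data

variable {p : ℕ} {F : Type*} [Field F] (D : Data p F)

/-- `x ∈ π ^ M O`. -/
def Dvd (M : ℕ) (x : F) : Prop := ∃ z ∈ D.O, x = D.π ^ M * z

/-- The line bundle attached to `u` is trivial modulo `π ^ j`: sections `a_i ≡ 1` on the two charts
with `a_1 ≡ a_2 mod π ^ j`. -/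
def Sec (u : F) (j : ℕ) : Prop :=
  ∃ a1 a2 : F, a1 ^ p * u ∈ D.B1 ∧ a2 ^ p * u ∈ D.B2 ∧ D.Dvd 1 (a1 - 1) ∧ D.Dvd 1 (a2 - 1) ∧
    D.Dvd j (a1 - a2)

/-- The line bundle attached to `u` is trivial. -/
def Triv (u : F) : Prop := ∃ s : F, s ≠ 0 ∧ s ^ p * u ∈ D.B1 ∧ s ^ p * u ∈ D.B2

/-- Bounded `π`-torsion of the Cech `H¹` of the line bundle attached to `u`
(same shape as `htors` in `Fermat.Agent.S18.Abs.inj_abs_core`). -/
def Tors (u : F) : Prop :=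
  ∃ k0 : ℕ, ∀ y : F, y ^ p * u ∈ D.B12 → ∀ k : ℕ,
    (∃ y1 y2 : F, y1 ^ p * u ∈ D.B1 ∧ y2 ^ p * u ∈ D.B2 ∧ D.π ^ k * y = y1 + y2) →
    ∃ y1 y2 : F, y1 ^ p * u ∈ D.B1 ∧ y2 ^ p * u ∈ D.B2 ∧ D.π ^ k0 * y = y1 + y2

variable {D}

theorem π_memO : D.π ∈ D.O := D.B12_le (D.B1_le (D.A_le1 D.π_mem))

theorem A_leO : D.A ≤ D.O := fun _ h => D.B12_le (D.B1_le (D.A_le1 h))

theorem B1_leO : D.B1 ≤ D.O := fun _ h => D.B12_le (D.B1_le h)

theorem B2_leO : D.B2 ≤ D.O := fun _ h => D.B12_le (D.B2_le h)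

theorem dvd_zero_iff {x : F} : D.Dvd 0 x ↔ x ∈ D.O := by
  constructor
  · rintro ⟨z, hz, rfl⟩; simpa using hz
  · intro h; exact ⟨x, h, by simp⟩

theorem Dvd.mem {M : ℕ} {x : F} (h : D.Dvd M x) : x ∈ D.O := by
  obtain ⟨z, hz, rfl⟩ := h
  exact D.O.mul_mem (D.O.pow_mem π_memO _) hz

theorem Dvd.zero (M : ℕ) : D.Dvd M 0 := ⟨0, D.O.zero_mem, by simp⟩

theorem Dvd.add {M : ℕ} {x y : F} (hx : D.Dvd M x) (hy : D.Dvd M y) : D.Dvd M (x + y) := by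
  obtain ⟨a, ha, rfl⟩ := hx
  obtain ⟨b, hb, rfl⟩ := hy
  exact ⟨a + b, D.O.add_mem ha hb, by ring⟩

theorem Dvd.neg {M : ℕ} {x : F} (hx : D.Dvd M x) : D.Dvd M (-x) := by
  obtain ⟨a, ha, rfl⟩ := hx
  exact ⟨-a, D.O.neg_mem ha, by ring⟩

theorem Dvd.sub {M : ℕ} {x y : F} (hx : D.Dvd M x) (hy : D.Dvd M y) : D.Dvd M (x - y) := by
  rw [sub_eq_add_neg]; exact hx.add hy.neg

theorem Dvd.mul {M M' : ℕ} {x y : F} (hx : D.Dvd M x) (hy : D.Dvd M' y) :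
    D.Dvd (M + M') (x * y) := by
  obtain ⟨a, ha, rfl⟩ := hx
  obtain ⟨b, hb, rfl⟩ := hy
  exact ⟨a * b, D.O.mul_mem ha hb, by ring⟩

theorem Dvd.mul_left {M : ℕ} {x y : F} (hx : x ∈ D.O) (hy : D.Dvd M y) : D.Dvd M (x * y) := by
  obtain ⟨b, hb, rfl⟩ := hy
  exact ⟨x * b, D.O.mul_mem hx hb, by ring⟩

theorem Dvd.mul_right {M : ℕ} {x y : F} (hx : D.Dvd M x) (hy : y ∈ D.O) : D.Dvd M (x * y) := by
  rw [mul_comm]; exact Dvd.mul_left hy hx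

theorem Dvd.mono {M M' : ℕ} (h : M ≤ M') {x : F} (hx : D.Dvd M' x) : D.Dvd M x := by
  obtain ⟨a, ha, rfl⟩ := hx
  obtain ⟨d, rfl⟩ := Nat.exists_eq_add_of_le h
  exact ⟨D.π ^ d * a, D.O.mul_mem (D.O.pow_mem π_memO _) ha, by ring⟩

theorem dvd_pow_mul {M : ℕ} {x : F} (hx : x ∈ D.O) : D.Dvd M (D.π ^ M * x) := ⟨x, hx, rfl⟩

theorem Dvd.pow_mul {M M' : ℕ} {x : F} (hx : D.Dvd M x) : D.Dvd (M' + M) (D.π ^ M' * x) := by
  obtain ⟨a, ha, rfl⟩ := hx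
  exact ⟨a, ha, by ring⟩

theorem Dvd.of_pow_mul {M M' : ℕ} {x : F} (hx : D.Dvd (M' + M) (D.π ^ M' * x)) : D.Dvd M x := by
  obtain ⟨a, ha, h⟩ := hx
  refine ⟨a, ha, ?_⟩
  have h0 : D.π ^ M' ≠ 0 := pow_ne_zero _ D.π_ne
  apply mul_left_cancel₀ h0
  rw [h]; ring

theorem dvd_p : D.Dvd D.e (p : F) := ⟨D.η, A_leO D.η_mem, by rw [D.p_eq]; ring⟩

theorem dvd_one_iff {x : F} : D.Dvd 1 x ↔ ∃ t ∈ D.O, x = D.π * t := by
  unfold Dvd; simp

theorem not_dvd_one_one : ¬ D.Dvd 1 (1 : F) := by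
  rintro ⟨z, hz, h⟩
  apply D.π_inv
  have : D.π⁻¹ = z := by
    rw [pow_one] at h
    have h0 := D.π_ne
    field_simp
    exact h
  rw [this]; exact hz

/-- an element `≡ 1 mod π` is a unit of `O` -/
theorem inv_mem_of_dvd {x : F} (hx : D.Dvd 1 (x - 1)) : x⁻¹ ∈ D.O := by
  obtain ⟨z, hz, h⟩ := hx
  have : x = 1 + D.π * z := by rw [pow_one] at h; linear_combination h
  rw [this]; exact D.one_add z hz

theorem mem_of_dvd {x : F} (hx : D.Dvd 1 (x - 1)) : x ∈ D.O := by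
  have := D.O.add_mem hx.mem D.O.one_mem
  simpa using this

theorem ne_zero_of_dvd {x : F} (hx : D.Dvd 1 (x - 1)) : x ≠ 0 := by
  rintro rfl
  apply not_dvd_one_one (D := D)
  have := hx.neg
  simpa using this

theorem Sec.mono {u : F} {j j' : ℕ} (h : j ≤ j') (hs : D.Sec u j') : D.Sec u j := by
  obtain ⟨a1, a2, h1, h2, h3, h4, h5⟩ := hs
  exact ⟨a1, a2, h1, h2, h3, h4, h5.mono h⟩

end Data

end Fermat.Agent.S33.Cech
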