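/-
S33 / Layer II_p.  TASK CECH-2: the three binomial expansions of `(a + π ^ j y) ^ p - a ^ p`.
In all cases expand with `add_pow`; the terms `1 ≤ i < p` are divisible by `p = η π ^ e`
(`Nat.Prime.dvd_choose_self`), the term `i = 1` is `p a ^ (p-1) π ^ j y`, the term `i = p` is
`π ^ (p j) y ^ p`.
-/
import Fermat.Agent.S33.Cech.Defs

set_option autoImplicit false

namespace Fermat.Agent.S33.Cech.Data

/-- The binomial expansion with the first order term made explicit. -/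
theorem binom_expand_aux {R : Type*} [CommRing R] (l : ℕ) (hp : (l + 2).Prime) (a b : R) :
    ∃ w : R, (a + b) ^ (l + 2) =
      a ^ (l + 2) + ((l + 2 : ℕ) : R) * a ^ (l + 1) * b + ((l + 2 : ℕ) : R) * b ^ 2 * w
        + b ^ (l + 2) := by
  have hdvd : ((l + 2 : ℕ) : R) * b ^ 2 ∣
      ∑ m ∈ Finset.range l, a ^ (m + 1) * b ^ (l + 2 - (m + 1)) * ((l + 2).choose (m + 1) : R) := by
    refine Finset.dvd_sum fun m hm => ?_
    have hm' : m < l := Finset.mem_range.mp hm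
    have h1 : ((l + 2 : ℕ) : R) ∣ ((l + 2).choose (m + 1) : R) :=
      Nat.cast_dvd_cast (hp.dvd_choose_self (Nat.succ_ne_zero m) (by omega))
    have h2 : b ^ 2 ∣ b ^ (l + 2 - (m + 1)) := pow_dvd_pow b (by omega)
    have h3 : ((l + 2 : ℕ) : R) * b ^ 2 ∣ ((l + 2).choose (m + 1) : R) * b ^ (l + 2 - (m + 1)) :=
      mul_dvd_mul h1 h2
    have h4 : a ^ (m + 1) * b ^ (l + 2 - (m + 1)) * ((l + 2).choose (m + 1) : R)
        = a ^ (m + 1) * (((l + 2).choose (m + 1) : R) * b ^ (l + 2 - (m + 1))) := by ring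
    rw [h4]
    exact Dvd.dvd.mul_left h3 _
  obtain ⟨w, hw⟩ := hdvd
  refine ⟨w, ?_⟩
  rw [add_pow, Finset.sum_range_succ, Finset.sum_range_succ, Finset.sum_range_succ', hw]
  have e1 : l + 2 - (l + 2) = 0 := by omega
  have e2 : l + 2 - (l + 1) = 1 := by omega
  have c1 : (l + 2).choose (l + 1) = l + 2 := by
    exact Nat.choose_succ_self_right (l + 1)
  rw [e1, e2, c1, Nat.choose_self, Nat.choose_zero_right]
  simp only [pow_zero, pow_one, Nat.cast_one, mul_one, one_mul, Nat.sub_zero]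
  ring

variable {p : ℕ} [Fact p.Prime] {F : Type*} [Field F] {D : Data p F}

/-- The expansion inside `O`. -/
theorem binom_expand {a b : F} (ha : a ∈ D.O) (hb : b ∈ D.O) :
    ∃ w ∈ D.O, (a + b) ^ p = a ^ p + (p : F) * a ^ (p - 1) * b + (p : F) * b ^ 2 * w + b ^ p := by
  have hp : p.Prime := Fact.out
  obtain ⟨l, rfl⟩ : ∃ l, p = l + 2 := ⟨p - 2, by have := hp.two_le; omega⟩
  obtain ⟨w, hw⟩ := binom_expand_aux l hp (⟨a, ha⟩ : D.O) ⟨b, hb⟩
  refine ⟨w, w.2, ?_⟩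
  have := congrArg (Subtype.val) hw
  have h2 : l + 2 - 1 = l + 1 := by omega
  rw [h2]
  simpa only [Subring.coe_add, Subring.coe_mul, Subring.coe_pow, Subring.coe_natCast] using this

omit [Fact p.Prime] in
theorem binom_dvd_pow_sub_one {a : F} (ha : D.Dvd 1 (a - 1)) (n : ℕ) : D.Dvd 1 (a ^ n - 1) := by
  induction n with
  | zero => simpa using Dvd.zero (D := D) 1
  | succ n ih =>
    have : a ^ (n + 1) - 1 = a * (a ^ n - 1) + (a - 1) := by ring
    rw [this]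
    exact (Dvd.mul_left (mem_of_dvd ha) ih).add ha

/-- common part of the three expansions -/
theorem binom_common {j : ℕ} {a y : F} (ha : a ∈ D.O) (hy : y ∈ D.O) :
    ∃ w ∈ D.O, (a + D.π ^ j * y) ^ p - a ^ p =
      D.η * D.π ^ (D.e + j) * (a ^ (p - 1) * y) + D.π ^ (D.e + 2 * j) * w
        + D.π ^ (p * j) * y ^ p := by
  have hb : D.π ^ j * y ∈ D.O := D.O.mul_mem (D.O.pow_mem π_memO _) hy
  obtain ⟨w, hw, h⟩ := binom_expand ha hb
  refine ⟨D.η * y ^ 2 * w, D.O.mul_mem (D.O.mul_mem (A_leO D.η_mem) (D.O.pow_mem hy 2)) hw, ?_⟩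
  rw [h, D.p_eq]
  ring

/-- shallow range `(p-1) j < e`: the leading term is `π ^ (p j) y ^ p`. -/
theorem binom_up {j : ℕ} (hj : 1 ≤ j) (hje : (p - 1) * j < D.e) {a y u : F} (ha : a ∈ D.O)
    (hy : y ∈ D.O) (hu : D.Dvd 1 (u - 1)) :
    D.Dvd (p * j + 1) (((a + D.π ^ j * y) ^ p - a ^ p) * u - D.π ^ (p * j) * y ^ p) := by
  have hp : p.Prime := Fact.out
  have hpj : p * j = (p - 1) * j + j := by
    obtain ⟨k, rfl⟩ : ∃ k, p = k + 1 := ⟨p - 1, by have := hp.one_lt; omega⟩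
    simp only [Nat.add_sub_cancel]; ring
  obtain ⟨w, hw, h⟩ := binom_common (D := D) (j := j) ha hy
  have huO : u ∈ D.O := mem_of_dvd hu
  have hη : D.η ∈ D.O := A_leO D.η_mem
  have t1 : D.Dvd (p * j + 1) (D.η * D.π ^ (D.e + j) * (a ^ (p - 1) * y) * u) := by
    have : D.η * D.π ^ (D.e + j) * (a ^ (p - 1) * y) * u
        = D.π ^ (D.e + j) * (D.η * (a ^ (p - 1) * y) * u) := by ring
    rw [this]
    exact (dvd_pow_mul (D.O.mul_mem (D.O.mul_mem hη (D.O.mul_mem (D.O.pow_mem ha _) hy)) huO)).mono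
      (by omega)
  have t2 : D.Dvd (p * j + 1) (D.π ^ (D.e + 2 * j) * w * u) := by
    rw [mul_assoc]
    exact (dvd_pow_mul (D.O.mul_mem hw huO)).mono (by omega)
  have t3 : D.Dvd (p * j + 1) (D.π ^ (p * j) * y ^ p * (u - 1)) :=
    (dvd_pow_mul (D.O.pow_mem hy p)).mul hu
  have : ((a + D.π ^ j * y) ^ p - a ^ p) * u - D.π ^ (p * j) * y ^ p
      = D.η * D.π ^ (D.e + j) * (a ^ (p - 1) * y) * u + D.π ^ (D.e + 2 * j) * w * u
        + D.π ^ (p * j) * y ^ p * (u - 1) := by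
    rw [h]; ring
  rw [this]
  exact (t1.add t2).add t3

/-- deep range `e < (p-1) j`: the leading term is `η π ^ (e + j) y`. -/
theorem binom_kl {j : ℕ} (hj : 1 ≤ j) (hje : D.e < (p - 1) * j) {a y u : F}
    (ha : D.Dvd 1 (a - 1)) (hy : y ∈ D.O) (hu : D.Dvd 1 (u - 1)) :
    D.Dvd (D.e + j + 1) (((a + D.π ^ j * y) ^ p - a ^ p) * u - D.η * D.π ^ (D.e + j) * y) := by
  have hp : p.Prime := Fact.out
  have hpj : p * j = (p - 1) * j + j := by
    obtain ⟨k, rfl⟩ : ∃ k, p = k + 1 := ⟨p - 1, by have := hp.one_lt; omega⟩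
    simp only [Nat.add_sub_cancel]; ring
  have haO : a ∈ D.O := mem_of_dvd ha
  obtain ⟨w, hw, h⟩ := binom_common (D := D) (j := j) haO hy
  have huO : u ∈ D.O := mem_of_dvd hu
  have hη : D.η ∈ D.O := A_leO D.η_mem
  have hau : D.Dvd 1 (a ^ (p - 1) * u - 1) := by
    have : a ^ (p - 1) * u - 1 = (a ^ (p - 1) - 1) * u + (u - 1) := by ring
    rw [this]
    exact ((binom_dvd_pow_sub_one ha _).mul_right huO).add hu
  have t1 : D.Dvd (D.e + j + 1) (D.π ^ (D.e + j) * (D.η * y) * (a ^ (p - 1) * u - 1)) :=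
    (dvd_pow_mul (D.O.mul_mem hη hy)).mul hau
  have t2 : D.Dvd (D.e + j + 1) (D.π ^ (D.e + 2 * j) * w * u) := by
    rw [mul_assoc]
    exact (dvd_pow_mul (D.O.mul_mem hw huO)).mono (by omega)
  have t3 : D.Dvd (D.e + j + 1) (D.π ^ (p * j) * y ^ p * u) := by
    rw [mul_assoc]
    exact (dvd_pow_mul (D.O.mul_mem (D.O.pow_mem hy p) huO)).mono (by omega)
  have : ((a + D.π ^ j * y) ^ p - a ^ p) * u - D.η * D.π ^ (D.e + j) * y
      = D.π ^ (D.e + j) * (D.η * y) * (a ^ (p - 1) * u - 1) + D.π ^ (D.e + 2 * j) * w * u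
        + D.π ^ (p * j) * y ^ p * u := by
    rw [h]; ring
  rw [this]
  exact (t1.add t2).add t3

/-- critical depth `(p-1) j = e`: the leading term is `π ^ (p j) (y ^ p + η y)`. -/
theorem binom_as {j : ℕ} (hj : 1 ≤ j) (hje : (p - 1) * j = D.e) {a y u : F}
    (ha : D.Dvd 1 (a - 1)) (hy : y ∈ D.O) (hu : D.Dvd 1 (u - 1)) :
    D.Dvd (p * j + 1)
      (((a + D.π ^ j * y) ^ p - a ^ p) * u - D.π ^ (p * j) * (y ^ p + D.η * y)) := by
  have hp : p.Prime := Fact.out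
  have hpj : p * j = D.e + j := by
    rw [← hje]
    obtain ⟨k, rfl⟩ : ∃ k, p = k + 1 := ⟨p - 1, by have := hp.one_lt; omega⟩
    simp only [Nat.add_sub_cancel]; ring
  have haO : a ∈ D.O := mem_of_dvd ha
  obtain ⟨w, hw, h⟩ := binom_common (D := D) (j := j) haO hy
  have huO : u ∈ D.O := mem_of_dvd hu
  have hη : D.η ∈ D.O := A_leO D.η_mem
  have hau : D.Dvd 1 (a ^ (p - 1) * u - 1) := by
    have : a ^ (p - 1) * u - 1 = (a ^ (p - 1) - 1) * u + (u - 1) := by ring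
    rw [this]
    exact ((binom_dvd_pow_sub_one ha _).mul_right huO).add hu
  have t1 : D.Dvd (p * j + 1) (D.π ^ (p * j) * (D.η * y) * (a ^ (p - 1) * u - 1)) :=
    (dvd_pow_mul (D.O.mul_mem hη hy)).mul hau
  have t2 : D.Dvd (p * j + 1) (D.π ^ (D.e + 2 * j) * w * u) := by
    rw [mul_assoc]
    exact (dvd_pow_mul (D.O.mul_mem hw huO)).mono (by omega)
  have t3 : D.Dvd (p * j + 1) (D.π ^ (p * j) * y ^ p * (u - 1)) :=
    (dvd_pow_mul (D.O.pow_mem hy p)).mul hu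
  have : ((a + D.π ^ j * y) ^ p - a ^ p) * u - D.π ^ (p * j) * (y ^ p + D.η * y)
      = D.π ^ (p * j) * (D.η * y) * (a ^ (p - 1) * u - 1) + D.π ^ (D.e + 2 * j) * w * u
        + D.π ^ (p * j) * y ^ p * (u - 1) := by
    rw [h, ← hpj]; ring
  rw [this]
  exact (t1.add t2).add t3

/-- Frobenius is additive modulo `π`. -/
theorem dvd_add_pow {x y : F} (hx : x ∈ D.O) (hy : y ∈ D.O) :
    D.Dvd 1 ((x + y) ^ p - x ^ p - y ^ p) := by
  obtain ⟨w, hw, h⟩ := binom_expand (D := D) hx hy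
  have : (x + y) ^ p - x ^ p - y ^ p = (p : F) * (x ^ (p - 1) * y + y ^ 2 * w) := by
    rw [h]; ring
  rw [this]
  have h1 : D.Dvd D.e ((p : F) * (x ^ (p - 1) * y + y ^ 2 * w)) :=
    dvd_p.mul_right (D.O.add_mem (D.O.mul_mem (D.O.pow_mem hx _) hy)
      (D.O.mul_mem (D.O.pow_mem hy 2) hw))
  exact h1.mono D.e_pos

/-- Frobenius is injective modulo `π` (difference form). -/
theorem dvd_sub_of_pow {x y : F} (hx : x ∈ D.O) (hy : y ∈ D.O) (h : D.Dvd 1 (x ^ p - y ^ p)) :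
    D.Dvd 1 (x - y) := by
  have hp : p.Prime := Fact.out
  have h1 : D.Dvd 1 ((x + -y) ^ p - x ^ p - (-y) ^ p) := dvd_add_pow hx (D.O.neg_mem hy)
  have h2 : D.Dvd 1 ((-y) ^ p + y ^ p) := by
    rcases hp.eq_two_or_odd' with h2 | hodd
    · have : (-y) ^ p + y ^ p = (p : F) * y ^ 2 := by
        subst h2; push_cast; ring
      rw [this]
      exact (dvd_p.mul_right (D.O.pow_mem hy 2)).mono D.e_pos
    · rw [hodd.neg_pow, neg_add_cancel]
      exact Dvd.zero 1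
  have h3 : D.Dvd 1 ((x - y) ^ p) := by
    have : (x - y) ^ p = ((x + -y) ^ p - x ^ p - (-y) ^ p) + ((-y) ^ p + y ^ p) + (x ^ p - y ^ p) := by
      ring
    rw [this]
    exact (h1.add h2).add h
  exact dvd_one_iff.mpr (D.frob (x - y) (D.O.sub_mem hx hy) (dvd_one_iff.mp h3))

end Fermat.Agent.S33.Cech.Data
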