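/-
S33 / Layer II_p.  TASK CECH-3: leading terms of `p`-th powers (the lemma "IMP" in the ring `O`).

Let `r ≡ 1 mod π`, `r ^ p ≡ c + π ^ (p j) h mod π ^ (p j + 1)` with `c` a constant.
Step 1 (`exists_const_approx`): by induction on `s ≤ j`, `r = d + π ^ s g` with `d ∈ A`, `d ≡ 1`,
`g ∈ O`.  Indeed for `s < j`, `binom_up` (with `a = d`, `u = 1`) gives
`r ^ p ≡ d ^ p + π ^ (p s) g ^ p mod π ^ (p s + 1)`, and `r ^ p ≡ c mod π ^ (p s + 1)`, so
`c - d ^ p = π ^ (p s) c₁` with `c₁ ∈ A` (`D.satA`), `g ^ p ≡ c₁`, `c₁ ≡ d' ^ p` (`D.perfect`),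
`g ≡ d'` (`dvd_sub_of_pow`), `r = (d + π ^ s d') + π ^ (s+1) g'`.
Step 2: at `s = j` compare the two expansions of `r ^ p` (`binom_up`, resp. `binom_as`).
-/
import Fermat.Agent.S33.Cech.Binom

set_option autoImplicit false

namespace Fermat.Agent.S33.Cech.Data

variable {p : ℕ} [Fact p.Prime] {F : Type*} [Field F] {D : Data p F}

omit [Fact p.Prime] in
theorem imp_satA_pow {n : ℕ} {z : F} (hz : z ∈ D.O) (h : D.π ^ n * z ∈ D.A) : z ∈ D.A := by
  induction n with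
  | zero => simpa using h
  | succ n ih =>
    apply ih
    apply D.satA _ (D.O.mul_mem (D.O.pow_mem π_memO _) hz)
    rw [← mul_assoc, ← pow_succ']
    exact h

omit [Fact p.Prime] in
/-- a constant which is `π ^ M x` modulo `π ^ (M + 1)`: then `x` is constant modulo `π`. -/
theorem imp_key {M : ℕ} {a x : F} (ha : a ∈ D.A) (hx : x ∈ D.O)
    (h : D.Dvd (M + 1) (a - D.π ^ M * x)) : ∃ c₁ ∈ D.A, D.Dvd 1 (x - c₁) := by
  obtain ⟨t, ht, h⟩ := h
  refine ⟨x + D.π * t, ?_, ⟨-t, D.O.neg_mem ht, by ring⟩⟩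
  apply imp_satA_pow (n := M) (D.O.add_mem hx (D.O.mul_mem π_memO ht))
  have : D.π ^ M * (x + D.π * t) = a := by linear_combination -h
  rw [this]
  exact ha

theorem exists_const_approx {j : ℕ} (hje : (p - 1) * j ≤ D.e) {r c : F}
    (hr : D.Dvd 1 (r - 1)) (hc : c ∈ D.A) (H : D.Dvd (p * j) (r ^ p - c)) {s : ℕ} (hs1 : 1 ≤ s)
    (hs : s ≤ j) :
    ∃ d ∈ D.A, ∃ g ∈ D.O, D.Dvd 1 (d - 1) ∧ r = d + D.π ^ s * g := by
  have hp : p.Prime := Fact.out
  induction s, hs1 using Nat.le_induction with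
  | base =>
    obtain ⟨z, hz, h⟩ := hr
    exact ⟨1, D.A.one_mem, z, hz, by simpa using Dvd.zero (D := D) 1, by linear_combination h⟩
  | succ s hs1 ih =>
    obtain ⟨d, hd, g, hg, hd1, hrd⟩ := ih (by omega)
    have hlt : (p - 1) * s < D.e := by
      refine lt_of_lt_of_le ?_ hje
      exact Nat.mul_lt_mul_of_pos_left (by omega) (by have := hp.two_le; omega)
    have hb := binom_up (D := D) hs1 hlt (a := d) (y := g) (u := 1) (A_leO hd) hg
      (by simpa using Dvd.zero (D := D) 1)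
    rw [← hrd, mul_one] at hb
    have hle : p * s + 1 ≤ p * j := by
      have h1 : p * (s + 1) ≤ p * j := Nat.mul_le_mul_left p hs
      have := hp.two_le
      rw [Nat.mul_succ] at h1
      omega
    have h2 : D.Dvd (p * s + 1) (c - d ^ p - D.π ^ (p * s) * g ^ p) := by
      have := hb.sub (H.mono hle)
      have e : r ^ p - d ^ p - D.π ^ (p * s) * g ^ p - (r ^ p - c) =
          c - d ^ p - D.π ^ (p * s) * g ^ p := by ring
      rwa [e] at this
    obtain ⟨c₁, hc₁, h3⟩ := imp_key (D.A.sub_mem hc (D.A.pow_mem hd p)) (D.O.pow_mem hg p) h2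
    obtain ⟨d', hd', t', ht', h4⟩ := D.perfect c₁ hc₁
    have h5 : D.Dvd 1 (g ^ p - d' ^ p) := by
      have h4' : D.Dvd 1 (d' ^ p - c₁) := ⟨t', ht', by rw [h4, pow_one]⟩
      have := h3.sub h4'
      have e : g ^ p - c₁ - (d' ^ p - c₁) = g ^ p - d' ^ p := by ring
      rwa [e] at this
    obtain ⟨g', hg', h6⟩ := dvd_sub_of_pow hg (A_leO hd') h5
    refine ⟨d + D.π ^ s * d', D.A.add_mem hd (D.A.mul_mem (D.A.pow_mem D.π_mem s) hd'), g', hg',
      ?_, ?_⟩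
    · have h7 : D.Dvd 1 (D.π ^ s * d') := (dvd_pow_mul (M := s) (A_leO hd')).mono hs1
      have := hd1.add h7
      have e : d - 1 + D.π ^ s * d' = d + D.π ^ s * d' - 1 := by ring
      rwa [e] at this
    · rw [hrd]
      have : g = d' + D.π * g' := by rw [pow_one] at h6; linear_combination h6
      rw [this]
      ring

theorem imp_up {j : ℕ} (hj : 1 ≤ j) (hje : (p - 1) * j < D.e) {r c h : F}
    (hr : D.Dvd 1 (r - 1)) (hc : c ∈ D.A) (hh : h ∈ D.O)
    (H : D.Dvd (p * j + 1) (r ^ p - c - D.π ^ (p * j) * h)) :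
    ∃ f ∈ D.O, ∃ d ∈ D.A, D.Dvd 1 (h - f ^ p - d) := by
  have H0 : D.Dvd (p * j) (r ^ p - c) := by
    have := (H.mono (Nat.le_succ _)).add (dvd_pow_mul (M := p * j) hh)
    simpa using this
  obtain ⟨d, hd, g, hg, hd1, hrd⟩ := exists_const_approx hje.le hr hc H0 hj le_rfl
  have hb := binom_up (D := D) hj hje (a := d) (y := g) (u := 1) (A_leO hd) hg
    (by simpa using Dvd.zero (D := D) 1)
  rw [← hrd, mul_one] at hb
  have h2 : D.Dvd (p * j + 1) (d ^ p - c - D.π ^ (p * j) * (h - g ^ p)) := by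
    have := H.sub hb
    have e : r ^ p - c - D.π ^ (p * j) * h - (r ^ p - d ^ p - D.π ^ (p * j) * g ^ p) =
        d ^ p - c - D.π ^ (p * j) * (h - g ^ p) := by ring
    rwa [e] at this
  obtain ⟨c₁, hc₁, h3⟩ := imp_key (D.A.sub_mem (D.A.pow_mem hd p) hc)
    (D.O.sub_mem hh (D.O.pow_mem hg p)) h2
  exact ⟨g, hg, c₁, hc₁, h3⟩

theorem imp_as {j : ℕ} (hj : 1 ≤ j) (hje : (p - 1) * j = D.e) {r c h : F}
    (hr : D.Dvd 1 (r - 1)) (hc : c ∈ D.A) (hh : h ∈ D.O)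
    (H : D.Dvd (p * j + 1) (r ^ p - c - D.π ^ (p * j) * h)) :
    ∃ f ∈ D.O, ∃ d ∈ D.A, D.Dvd 1 (h - (f ^ p + D.η * f) - d) := by
  have H0 : D.Dvd (p * j) (r ^ p - c) := by
    have := (H.mono (Nat.le_succ _)).add (dvd_pow_mul (M := p * j) hh)
    simpa using this
  obtain ⟨d, hd, g, hg, hd1, hrd⟩ := exists_const_approx hje.le hr hc H0 hj le_rfl
  have hb := binom_as (D := D) hj hje (a := d) (y := g) (u := 1) hd1 hg
    (by simpa using Dvd.zero (D := D) 1)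
  rw [← hrd, mul_one] at hb
  have h2 : D.Dvd (p * j + 1) (d ^ p - c - D.π ^ (p * j) * (h - (g ^ p + D.η * g))) := by
    have := H.sub hb
    have e : r ^ p - c - D.π ^ (p * j) * h -
        (r ^ p - d ^ p - D.π ^ (p * j) * (g ^ p + D.η * g)) =
        d ^ p - c - D.π ^ (p * j) * (h - (g ^ p + D.η * g)) := by ring
    rwa [e] at this
  obtain ⟨c₁, hc₁, h3⟩ := imp_key (D.A.sub_mem (D.A.pow_mem hd p) hc)
    (D.O.sub_mem hh (D.O.add_mem (D.O.pow_mem hg p) (D.O.mul_mem (A_leO D.η_mem) hg))) h2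
  exact ⟨g, hg, c₁, hc₁, h3⟩

end Fermat.Agent.S33.Cech.Data
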