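/-
S33 / Layer II_p.  TASK CECH-1: functions on the thickened special fibres are constant.
Proof: induction on `M`.  If `b1 = c + π ^ M t1`, `b2 = c + π ^ M t2` and `π ^ (M+1) ∣ b1 - b2`
then `π ∣ t1 - t2`, so by `D.h0` there is a constant `c'` with `π ∣ t1 - c'` (hence `π ∣ t2 - c'`),
and `(t_i - c') / π ∈ B_i` by `D.sat1`, `D.sat2`.
-/
import Fermat.Agent.S33.Cech.Defs

set_option autoImplicit false

namespace Fermat.Agent.S33.Cech.Data

variable {p : ℕ} {F : Type*} [Field F] {D : Data p F}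

theorem h0_deep (M : ℕ) {b1 b2 : F} (h1 : b1 ∈ D.B1) (h2 : b2 ∈ D.B2) (h : D.Dvd M (b1 - b2)) :
    ∃ c ∈ D.A, ∃ t1 ∈ D.B1, ∃ t2 ∈ D.B2, b1 = c + D.π ^ M * t1 ∧ b2 = c + D.π ^ M * t2 := by
  induction M with
  | zero => exact ⟨0, D.A.zero_mem, b1, h1, b2, h2, by simp, by simp⟩
  | succ M ih =>
    obtain ⟨c, hc, t1, ht1, t2, ht2, e1, e2⟩ := ih (h.mono (Nat.le_succ M))
    have hd : D.Dvd 1 (t1 - t2) := by
      apply Dvd.of_pow_mul (M' := M)
      have : D.π ^ M * (t1 - t2) = b1 - b2 := by rw [e1, e2]; ring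
      rw [this]
      exact h
    obtain ⟨s, hs, hs'⟩ := dvd_one_iff.1 hd
    obtain ⟨c', hc', t, ht, ht'⟩ := D.h0 t1 ht1 t2 ht2 ⟨s, hs, hs'⟩
    have hB1 : t ∈ D.B1 := by
      apply D.sat1 t ht
      rw [← ht']
      exact D.B1.sub_mem ht1 (D.A_le1 hc')
    have hB2 : t - s ∈ D.B2 := by
      apply D.sat2 (t - s) (D.O.sub_mem ht hs)
      have : D.π * (t - s) = t2 - c' := by linear_combination hs' - ht'
      rw [this]
      exact D.B2.sub_mem ht2 (D.A_le2 hc')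
    refine ⟨c + D.π ^ M * c', D.A.add_mem hc (D.A.mul_mem (D.A.pow_mem D.π_mem M) hc'),
      t, hB1, t - s, hB2, ?_, ?_⟩
    · rw [e1]
      linear_combination D.π ^ M * ht'
    · rw [e2]
      linear_combination D.π ^ M * (ht' - hs')

end Fermat.Agent.S33.Cech.Data
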