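/-
S33 / Layer II_p.  TASK CECH-8: (AS) the critical depth, for a geometrically integral special fibre.

Proof.  Let `a1 - a2 = π ^ j y`, `u_i = a_i ^ p u`.  By `binom_as`,
`u1 - u2 ≡ π ^ (p j) (y ^ p + η y) mod π ^ (p j + 1)`; by `h0_deep`, `u_i = c + π ^ (p j) h_i`;
`h1 - h2 ≡ y ^ p + η y`.  With `r_i = a_i / g`, `imp_as` gives `h_i ≡ f_i ^ p + η f_i + d_i`;
`has1`, `has2` (applied to `b = h_i - d_i`) give `b_i ∈ B_i`, `b_i ≡ f_i`.  Then `z = y - b1 + b2`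
satisfies `z ^ p + η z ≡ d1 - d2`, so `z ≡ d'` is a constant (`hconst`).
New sections `a1' = a1 (1 - π ^ j (b1 + d'))`, `a2' = a2 (1 - π ^ j b2)`.
-/
import Fermat.Agent.S33.Cech.H0
import Fermat.Agent.S33.Cech.Imp

set_option autoImplicit false

namespace Fermat.Agent.S33.Cech.Data

variable {p : ℕ} [Fact p.Prime] {F : Type*} [Field F] {D : Data p F}

omit [Fact p.Prime] in
/-- congruent elements have congruent powers -/
theorem as_dvd_pow_sub_pow {x y : F} (hx : x ∈ D.O) (hy : y ∈ D.O) (h : D.Dvd 1 (x - y)) (n : ℕ) :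
    D.Dvd 1 (x ^ n - y ^ n) := by
  induction n with
  | zero => simpa using Dvd.zero (D := D) 1
  | succ n ih =>
    have h1 : x ^ (n + 1) - y ^ (n + 1) = x ^ n * (x - y) + (x ^ n - y ^ n) * y := by ring
    rw [h1]
    exact (Dvd.mul_left (D.O.pow_mem hx n) h).add (ih.mul_right hy)

/-- `g ^ p u ≡ 1` and `u ≡ 1` force `g ≡ 1`. -/
theorem as_dvd_g {u g : F} (hu : D.Dvd 1 (u - 1)) (hg : D.Dvd 1 (g ^ p * u - 1)) :
    D.Dvd 1 (g - 1) := by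
  have hgp : g ^ p ∈ D.O := by
    have h1 : g ^ p = (g ^ p * u) * u⁻¹ := by
      have := ne_zero_of_dvd hu
      field_simp
    rw [h1]
    exact D.O.mul_mem (mem_of_dvd hg) (inv_mem_of_dvd hu)
  have hgO : g ∈ D.O := D.rootO g hgp
  refine dvd_sub_of_pow hgO D.O.one_mem ?_
  have h1 : g ^ p - 1 ^ p = (g ^ p * u - 1) - g ^ p * (u - 1) := by ring
  rw [h1]
  exact hg.sub (Dvd.mul_left hgp hu)

/-- the quotient `r = a / g`: it is `≡ 1` and `r ^ p ≡ a ^ p u` to the depth of `g ^ p u - 1`. -/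
theorem as_quot {M : ℕ} (hM : 1 ≤ M) {u g a : F} (hu : D.Dvd 1 (u - 1)) (ha : D.Dvd 1 (a - 1))
    (hg : D.Dvd M (g ^ p * u - 1)) :
    D.Dvd 1 (a / g - 1) ∧ D.Dvd M ((a / g) ^ p - a ^ p * u) := by
  have hg1 : D.Dvd 1 (g ^ p * u - 1) := hg.mono hM
  have hgg : D.Dvd 1 (g - 1) := as_dvd_g hu hg1
  have hg0 : g ≠ 0 := ne_zero_of_dvd hgg
  have hu0 : u ≠ 0 := ne_zero_of_dvd hu
  constructor
  · have h1 : a / g - 1 = ((a - 1) - (g - 1)) * g⁻¹ := by field_simp; ring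
    rw [h1]
    exact (ha.sub hgg).mul_right (inv_mem_of_dvd hgg)
  · have h1 : (a / g) ^ p - a ^ p * u
        = -((g ^ p * u - 1) * ((a ^ p * u) * (g ^ p * u)⁻¹)) := by
      rw [div_pow]
      field_simp
      ring
    rw [h1]
    refine (hg.mul_right ?_).neg
    exact D.O.mul_mem (D.O.mul_mem (D.O.pow_mem (mem_of_dvd ha) p) (mem_of_dvd hu))
      (inv_mem_of_dvd hg1)

theorem as_step {j : ℕ} (hj : 1 ≤ j) (hje : (p - 1) * j = D.e)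
    (hconst : ∀ z ∈ D.O, ∀ d ∈ D.A, D.Dvd 1 (z ^ p + D.η * z - d) → ∃ d' ∈ D.A, D.Dvd 1 (z - d'))
    (has1 : ∀ c ∈ D.O, ∀ b ∈ D.B1, D.Dvd 1 (c ^ p + D.η * c - b) → ∃ b' ∈ D.B1, D.Dvd 1 (c - b'))
    (has2 : ∀ c ∈ D.O, ∀ b ∈ D.B2, D.Dvd 1 (c ^ p + D.η * c - b) → ∃ b' ∈ D.B2, D.Dvd 1 (c - b'))
    {u g : F} (hu : D.Dvd 1 (u - 1)) (hs : D.Sec u j)
    (hg : D.Dvd (p * j + 1) (g ^ p * u - 1)) :
    D.Sec u (j + 1) := by
  obtain ⟨a1, a2, hu1, hu2, ha1, ha2, y, hy, hay⟩ := hs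
  have hηO : D.η ∈ D.O := A_leO D.η_mem
  have ha1e : a1 = a2 + D.π ^ j * y := by linear_combination hay
  -- the binomial expansion
  have hbin := binom_as hj hje ha2 hy hu
  rw [← ha1e] at hbin
  have hyy : y ^ p + D.η * y ∈ D.O := D.O.add_mem (D.O.pow_mem hy p) (D.O.mul_mem hηO hy)
  have hdiff : D.Dvd (p * j) (a1 ^ p * u - a2 ^ p * u) := by
    have h1 : a1 ^ p * u - a2 ^ p * u
        = ((a1 ^ p - a2 ^ p) * u - D.π ^ (p * j) * (y ^ p + D.η * y))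
          + D.π ^ (p * j) * (y ^ p + D.η * y) := by ring
    rw [h1]
    exact (hbin.mono (Nat.le_succ _)).add (dvd_pow_mul hyy)
  obtain ⟨c, hc, h1, hh1, h2, hh2, hu1e, hu2e⟩ := h0_deep (p * j) hu1 hu2 hdiff
  have hh1O : h1 ∈ D.O := B1_leO hh1
  have hh2O : h2 ∈ D.O := B2_leO hh2
  -- `h1 - h2 ≡ y ^ p + η y`
  have hh : D.Dvd 1 (h1 - h2 - (y ^ p + D.η * y)) := by
    apply Dvd.of_pow_mul (M' := p * j)
    have h3 : D.π ^ (p * j) * (h1 - h2 - (y ^ p + D.η * y))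
        = (a1 ^ p - a2 ^ p) * u - D.π ^ (p * j) * (y ^ p + D.η * y) := by
      linear_combination hu2e - hu1e
    rw [h3]
    exact hbin
  -- the quotients
  obtain ⟨hr1, hr1p⟩ := as_quot (Nat.succ_le_succ (Nat.zero_le _)) hu ha1 hg
  obtain ⟨hr2, hr2p⟩ := as_quot (Nat.succ_le_succ (Nat.zero_le _)) hu ha2 hg
  have H1 : D.Dvd (p * j + 1) ((a1 / g) ^ p - c - D.π ^ (p * j) * h1) := by
    have h3 : (a1 / g) ^ p - c - D.π ^ (p * j) * h1 = (a1 / g) ^ p - a1 ^ p * u := by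
      rw [hu1e]; ring
    rw [h3]; exact hr1p
  have H2 : D.Dvd (p * j + 1) ((a2 / g) ^ p - c - D.π ^ (p * j) * h2) := by
    have h3 : (a2 / g) ^ p - c - D.π ^ (p * j) * h2 = (a2 / g) ^ p - a2 ^ p * u := by
      rw [hu2e]; ring
    rw [h3]; exact hr2p
  obtain ⟨f1, hf1, d1, hd1, hfd1⟩ := imp_as hj hje hr1 hc hh1O H1
  obtain ⟨f2, hf2, d2, hd2, hfd2⟩ := imp_as hj hje hr2 hc hh2O H2
  obtain ⟨b1, hb1, hfb1⟩ := has1 f1 hf1 (h1 - d1) (D.B1.sub_mem hh1 (D.A_le1 hd1)) (by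
    have h3 : f1 ^ p + D.η * f1 - (h1 - d1) = -(h1 - (f1 ^ p + D.η * f1) - d1) := by ring
    rw [h3]; exact hfd1.neg)
  obtain ⟨b2, hb2, hfb2⟩ := has2 f2 hf2 (h2 - d2) (D.B2.sub_mem hh2 (D.A_le2 hd2)) (by
    have h3 : f2 ^ p + D.η * f2 - (h2 - d2) = -(h2 - (f2 ^ p + D.η * f2) - d2) := by ring
    rw [h3]; exact hfd2.neg)
  have hb1O : b1 ∈ D.O := B1_leO hb1
  have hb2O : b2 ∈ D.O := B2_leO hb2
  -- `z = y - b1 + b2`
  have hzO : y - b1 + b2 ∈ D.O := D.O.add_mem (D.O.sub_mem hy hb1O) hb2O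
  have hz : D.Dvd 1 ((y - b1 + b2) ^ p + D.η * (y - b1 + b2) - (d1 - d2)) := by
    have e1 := dvd_add_pow (D := D) hzO hb1O
    have e2 := dvd_add_pow (D := D) hy hb2O
    have e3 : y - b1 + b2 + b1 = y + b2 := by ring
    rw [e3] at e1
    have p1 := as_dvd_pow_sub_pow hf1 hb1O hfb1 p
    have p2 := as_dvd_pow_sub_pow hf2 hb2O hfb2 p
    have q1 := Dvd.mul_left hηO hfb1
    have q2 := Dvd.mul_left hηO hfb2
    have h3 : (y - b1 + b2) ^ p + D.η * (y - b1 + b2) - (d1 - d2)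
        = -((y + b2) ^ p - (y - b1 + b2) ^ p - b1 ^ p) + ((y + b2) ^ p - y ^ p - b2 ^ p)
          - (h1 - h2 - (y ^ p + D.η * y))
          + (h1 - (f1 ^ p + D.η * f1) - d1) - (h2 - (f2 ^ p + D.η * f2) - d2)
          + (f1 ^ p - b1 ^ p) - (f2 ^ p - b2 ^ p)
          + D.η * (f1 - b1) - D.η * (f2 - b2) := by ring
    rw [h3]
    exact (((((((e1.neg.add e2).sub hh).add hfd1).sub hfd2).add p1).sub p2).add q1).sub q2
  obtain ⟨d', hd', hzd⟩ := hconst _ hzO (d1 - d2) (D.A.sub_mem hd1 hd2) hz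
  have hd'O : d' ∈ D.O := A_leO hd'
  have hπj : D.Dvd 1 (D.π ^ j) := by
    have : D.Dvd j (D.π ^ j * 1) := dvd_pow_mul D.O.one_mem
    rw [mul_one] at this
    exact this.mono hj
  have ha1O : a1 ∈ D.O := mem_of_dvd ha1
  have ha2O : a2 ∈ D.O := mem_of_dvd ha2
  refine ⟨a1 * (1 - D.π ^ j * (b1 + d')), a2 * (1 - D.π ^ j * b2), ?_, ?_, ?_, ?_, ?_⟩
  · have h3 : (a1 * (1 - D.π ^ j * (b1 + d'))) ^ p * u
        = (a1 ^ p * u) * (1 - D.π ^ j * (b1 + d')) ^ p := by rw [mul_pow]; ring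
    rw [h3]
    exact D.B1.mul_mem hu1 (D.B1.pow_mem (D.B1.sub_mem D.B1.one_mem
      (D.B1.mul_mem (D.B1.pow_mem (D.A_le1 D.π_mem) j) (D.B1.add_mem hb1 (D.A_le1 hd')))) p)
  · have h3 : (a2 * (1 - D.π ^ j * b2)) ^ p * u = (a2 ^ p * u) * (1 - D.π ^ j * b2) ^ p := by
      rw [mul_pow]; ring
    rw [h3]
    exact D.B2.mul_mem hu2 (D.B2.pow_mem (D.B2.sub_mem D.B2.one_mem
      (D.B2.mul_mem (D.B2.pow_mem (D.A_le2 D.π_mem) j) hb2)) p)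
  · have h3 : a1 * (1 - D.π ^ j * (b1 + d')) - 1 = (a1 - 1) - D.π ^ j * (a1 * (b1 + d')) := by ring
    rw [h3]
    exact ha1.sub (hπj.mul_right (D.O.mul_mem ha1O (D.O.add_mem hb1O hd'O)))
  · have h3 : a2 * (1 - D.π ^ j * b2) - 1 = (a2 - 1) - D.π ^ j * (a2 * b2) := by ring
    rw [h3]
    exact ha2.sub (hπj.mul_right (D.O.mul_mem ha2O hb2O))
  · have h3 : a1 * (1 - D.π ^ j * (b1 + d')) - a2 * (1 - D.π ^ j * b2)
        = D.π ^ j * ((y - b1 + b2 - d') - (a1 - 1) * (b1 + d') + (a2 - 1) * b2) := by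
      linear_combination hay
    rw [h3]
    exact Dvd.pow_mul ((hzd.sub (ha1.mul_right (D.O.add_mem hb1O hd'O))).add (ha2.mul_right hb2O))

end Fermat.Agent.S33.Cech.Data
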