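/-
S33 / Layer II_p.  TASK CECH-7: (EQ) an automorphism which is trivial on the special fibre and
multiplies `π ^ j0` by `c` (to first order) multiplies the classes of Cech depth `≥ j0` by `c`.

Proof.  Sections `a_i' = σ a_i * a_i ^ (p - c)` of `u' = σ u * u ^ (p - c)`:
`a_i' ^ p u' = σ (a_i ^ p u) (a_i ^ p u) ^ (p - c) ∈ B_i`.  Write `a1 = a2 + ϖ y`, `ϖ = π ^ j0`.
Modulo `ϖ π O`: `a1' - a2' ≡ σ ϖ σ y a2 ^ (p-c) + (p - c) σ a2 a2 ^ (p-c-1) ϖ y ≡ ϖ (c y + (p - c) y)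
= ϖ p y ≡ 0`.
-/
import Fermat.Agent.S33.Cech.Defs

set_option autoImplicit false

namespace Fermat.Agent.S33.Cech.Data

variable {p : ℕ} [Fact p.Prime] {F : Type*} [Field F] {D : Data p F}

omit [Fact p.Prime] in
theorem eqStep_mul_sub_one {x y : F} (hx : D.Dvd 1 (x - 1)) (hy : D.Dvd 1 (y - 1)) :
    D.Dvd 1 (x * y - 1) := by
  have : x * y - 1 = (x - 1) * y + (y - 1) := by ring
  rw [this]
  exact (hx.mul_right (mem_of_dvd hy)).add hy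

omit [Fact p.Prime] in
theorem eqStep_pow_sub_one {x : F} (hx : D.Dvd 1 (x - 1)) (m : ℕ) : D.Dvd 1 (x ^ m - 1) := by
  induction m with
  | zero => simpa using Dvd.zero (D := D) 1
  | succ m ih => rw [pow_succ]; exact eqStep_mul_sub_one ih hx

omit [Fact p.Prime] in
theorem eqStep_sigma_sub_one (σ : F ≃+* F) (hσred : ∀ z ∈ D.O, D.Dvd 1 (σ z - z)) {x : F}
    (hx : D.Dvd 1 (x - 1)) : D.Dvd 1 (σ x - 1) := by
  have : σ x - 1 = (σ x - x) + (x - 1) := by ring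
  rw [this]
  exact (hσred x (mem_of_dvd hx)).add hx

omit [Fact p.Prime] in
/-- `a1 ^ m - a2 ^ m ≡ m (a1 - a2)` modulo `π ^ (j + 1)` for `a_i ≡ 1`, `a1 ≡ a2 mod π ^ j`. -/
theorem eqStep_pow_sub_pow {j : ℕ} {a1 a2 : F} (h1 : D.Dvd 1 (a1 - 1)) (h2 : D.Dvd 1 (a2 - 1))
    (hd : D.Dvd j (a1 - a2)) (m : ℕ) :
    D.Dvd (j + 1) (a1 ^ m - a2 ^ m - m * (a1 - a2)) := by
  induction m with
  | zero => simpa using Dvd.zero (D := D) (j + 1)
  | succ m ih =>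
    have e : a1 ^ (m + 1) - a2 ^ (m + 1) - ((m + 1 : ℕ) : F) * (a1 - a2) =
        a1 * (a1 ^ m - a2 ^ m - m * (a1 - a2)) + (m : F) * ((a1 - a2) * (a1 - 1)) +
          (a1 - a2) * (a2 ^ m - 1) := by
      push_cast; ring
    rw [e]
    exact ((Dvd.mul_left (mem_of_dvd h1) ih).add
      (Dvd.mul_left (natCast_mem D.O m) (hd.mul h1))).add (hd.mul (eqStep_pow_sub_one h2 m))

theorem eq_step {j0 : ℕ} (hj0 : 1 ≤ j0) (σ : F ≃+* F) (hσO : ∀ z ∈ D.O, σ z ∈ D.O)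
    (hσ1 : ∀ z ∈ D.B1, σ z ∈ D.B1) (hσ2 : ∀ z ∈ D.B2, σ z ∈ D.B2)
    (hσred : ∀ z ∈ D.O, D.Dvd 1 (σ z - z)) {c : ℕ} (hc : c ≤ p)
    (hσπ : D.Dvd (j0 + 1) (σ (D.π ^ j0) - c * D.π ^ j0)) {u : F}
    (hu : D.Dvd 1 (u - 1)) (hs : D.Sec u j0) :
    D.Dvd 1 (σ u * u ^ (p - c) - 1) ∧ D.Sec (σ u * u ^ (p - c)) (j0 + 1) := by
  obtain ⟨a1, a2, hB1, hB2, h1, h2, hd⟩ := hs
  set m : ℕ := p - c with hm
  refine ⟨eqStep_mul_sub_one (eqStep_sigma_sub_one σ hσred hu) (eqStep_pow_sub_one hu m),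
    σ a1 * a1 ^ m, σ a2 * a2 ^ m, ?_, ?_,
    eqStep_mul_sub_one (eqStep_sigma_sub_one σ hσred h1) (eqStep_pow_sub_one h1 m),
    eqStep_mul_sub_one (eqStep_sigma_sub_one σ hσred h2) (eqStep_pow_sub_one h2 m), ?_⟩
  · have e : (σ a1 * a1 ^ m) ^ p * (σ u * u ^ m) = σ (a1 ^ p * u) * (a1 ^ p * u) ^ m := by
      rw [map_mul, map_pow]; ring
    rw [e]
    exact D.B1.mul_mem (hσ1 _ hB1) (D.B1.pow_mem hB1 m)
  · have e : (σ a2 * a2 ^ m) ^ p * (σ u * u ^ m) = σ (a2 ^ p * u) * (a2 ^ p * u) ^ m := by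
      rw [map_mul, map_pow]; ring
    rw [e]
    exact D.B2.mul_mem (hσ2 _ hB2) (D.B2.pow_mem hB2 m)
  · -- the main congruence
    obtain ⟨y, hy, hdy⟩ := hd
    have hd' : D.Dvd j0 (a1 - a2) := ⟨y, hy, hdy⟩
    -- (i) `σ (a1 - a2) ≡ c (a1 - a2)`
    have hi : D.Dvd (j0 + 1) (σ (a1 - a2) - c * (a1 - a2)) := by
      have e : σ (a1 - a2) - c * (a1 - a2) =
          (σ (D.π ^ j0) - c * D.π ^ j0) * σ y + (c : F) * (D.π ^ j0 * (σ y - y)) := by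
        rw [hdy, map_mul]; ring
      rw [e]
      exact (hσπ.mul_right (hσO y hy)).add
        (Dvd.mul_left (natCast_mem D.O c) (hσred y hy).pow_mul)
    have hcd : D.Dvd j0 ((c : F) * (a1 - a2)) := Dvd.mul_left (natCast_mem D.O c) hd'
    have hmd : D.Dvd j0 ((m : F) * (a1 - a2)) := Dvd.mul_left (natCast_mem D.O m) hd'
    have hp : (c : F) + (m : F) = (p : F) := by
      rw [← Nat.cast_add, hm, Nat.add_sub_cancel' hc]
    have hpd : D.Dvd (j0 + 1) ((p : F) * (a1 - a2)) := by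
      have := ((dvd_p (D := D)).mono D.e_pos).mul hd'
      rwa [add_comm] at this
    have e : σ a1 * a1 ^ m - σ a2 * a2 ^ m =
        (σ (a1 - a2) - c * (a1 - a2)) * a1 ^ m + (c : F) * (a1 - a2) * (a1 ^ m - 1) +
          σ a2 * (a1 ^ m - a2 ^ m - m * (a1 - a2)) + (m : F) * (a1 - a2) * (σ a2 - 1) +
          (p : F) * (a1 - a2) := by
      rw [← hp, map_sub]; ring
    rw [e]
    have ha1m : a1 ^ m ∈ D.O := D.O.pow_mem (mem_of_dvd h1) m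
    exact ((((hi.mul_right ha1m).add (hcd.mul (eqStep_pow_sub_one h1 m))).add
      (Dvd.mul_left (hσO _ (mem_of_dvd h2)) (eqStep_pow_sub_pow h1 h2 hd' m))).add
      (hmd.mul (eqStep_sigma_sub_one σ hσred h2))).add hpd

end Fermat.Agent.S33.Cech.Data
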