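/-
S33 / Layer II_p.  TASK CECH-5: (KL) beyond the critical depth the Cech depth can always be improved.

Proof of `kl_step`.  Let `a1 - a2 = π ^ j y`, `u_i = a_i ^ p u ∈ B_i`.  By `binom_kl` (`a = a2`),
`u1 - u2 ≡ η π ^ (e + j) y mod π ^ (e + j + 1)`; by `h0_deep` (`M = e + j`)
`u_i = c + π ^ (e + j) h_i`, `h_i ∈ B_i`, so `y ≡ η⁻¹ (h1 - h2) mod π`.
New sections `a_i' = a_i (1 - π ^ j η⁻¹ h_i)`.
-/
import Fermat.Agent.S33.Cech.H0
import Fermat.Agent.S33.Cech.Binom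

set_option autoImplicit false

namespace Fermat.Agent.S33.Cech.Data

variable {p : ℕ} [Fact p.Prime] {F : Type*} [Field F] {D : Data p F}

theorem kl_step {j : ℕ} (hj : 1 ≤ j) (hje : D.e < (p - 1) * j) {u : F}
    (hu : D.Dvd 1 (u - 1)) (hs : D.Sec u j) : D.Sec u (j + 1) := by
  obtain ⟨a1, a2, h1, h2, h3, h4, y, hy, hy'⟩ := hs
  have ha1 : a1 = a2 + D.π ^ j * y := by linear_combination hy'
  have hb := binom_kl (D := D) hj hje h4 hy hu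
  rw [← ha1] at hb
  -- `u1 - u2` is divisible by `π ^ (e + j)`
  have hd : D.Dvd (D.e + j) (a1 ^ p * u - a2 ^ p * u) := by
    have e1 : a1 ^ p * u - a2 ^ p * u =
        ((a1 ^ p - a2 ^ p) * u - D.η * D.π ^ (D.e + j) * y) + D.π ^ (D.e + j) * (D.η * y) := by
      ring
    rw [e1]
    exact (hb.mono (Nat.le_succ _)).add (dvd_pow_mul (D.O.mul_mem (A_leO D.η_mem) hy))
  obtain ⟨c, _, t1, ht1, t2, ht2, e1, e2⟩ := h0_deep (D.e + j) h1 h2 hd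
  have ht1O : t1 ∈ D.O := B1_leO ht1
  have ht2O : t2 ∈ D.O := B2_leO ht2
  have hηO : D.η⁻¹ ∈ D.O := A_leO D.η_inv
  -- `t1 - t2 ≡ η y`
  have hty : D.Dvd 1 (t1 - t2 - D.η * y) := by
    apply Dvd.of_pow_mul (M' := D.e + j)
    have e3 : D.π ^ (D.e + j) * (t1 - t2 - D.η * y) =
        (a1 ^ p - a2 ^ p) * u - D.η * D.π ^ (D.e + j) * y := by
      linear_combination e2 - e1
    rw [e3]
    exact hb
  have hπj : D.Dvd 1 (D.π ^ j) := by
    have : D.Dvd j (D.π ^ j * 1) := dvd_pow_mul D.O.one_mem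
    rw [mul_one] at this
    exact this.mono hj
  have ha1O : a1 ∈ D.O := mem_of_dvd h3
  have ha2O : a2 ∈ D.O := mem_of_dvd h4
  refine ⟨a1 * (1 - D.π ^ j * D.η⁻¹ * t1), a2 * (1 - D.π ^ j * D.η⁻¹ * t2), ?_, ?_, ?_, ?_, ?_⟩
  · have : (a1 * (1 - D.π ^ j * D.η⁻¹ * t1)) ^ p * u =
        a1 ^ p * u * (1 - D.π ^ j * D.η⁻¹ * t1) ^ p := by rw [mul_pow]; ring
    rw [this]
    exact D.B1.mul_mem h1 (D.B1.pow_mem (D.B1.sub_mem D.B1.one_mem
      (D.B1.mul_mem (D.B1.mul_mem (D.B1.pow_mem (D.A_le1 D.π_mem) _) (D.A_le1 D.η_inv)) ht1)) _)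
  · have : (a2 * (1 - D.π ^ j * D.η⁻¹ * t2)) ^ p * u =
        a2 ^ p * u * (1 - D.π ^ j * D.η⁻¹ * t2) ^ p := by rw [mul_pow]; ring
    rw [this]
    exact D.B2.mul_mem h2 (D.B2.pow_mem (D.B2.sub_mem D.B2.one_mem
      (D.B2.mul_mem (D.B2.mul_mem (D.B2.pow_mem (D.A_le2 D.π_mem) _) (D.A_le2 D.η_inv)) ht2)) _)
  · have : a1 * (1 - D.π ^ j * D.η⁻¹ * t1) - 1 = (a1 - 1) - D.π ^ j * (a1 * D.η⁻¹ * t1) := by ring
    rw [this]
    exact h3.sub (hπj.mul_right (D.O.mul_mem (D.O.mul_mem ha1O hηO) ht1O))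
  · have : a2 * (1 - D.π ^ j * D.η⁻¹ * t2) - 1 = (a2 - 1) - D.π ^ j * (a2 * D.η⁻¹ * t2) := by ring
    rw [this]
    exact h4.sub (hπj.mul_right (D.O.mul_mem (D.O.mul_mem ha2O hηO) ht2O))
  · have hη := D.η_ne
    have : a1 * (1 - D.π ^ j * D.η⁻¹ * t1) - a2 * (1 - D.π ^ j * D.η⁻¹ * t2) =
        D.π ^ j * (-(D.η⁻¹ * (t1 - t2 - D.η * y)) - (a1 - 1) * (D.η⁻¹ * t1)
          + (a2 - 1) * (D.η⁻¹ * t2)) := by
      rw [ha1]
      field_simp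
      ring
    rw [this]
    apply Dvd.pow_mul
    exact (((Dvd.mul_left hηO hty).neg).sub (h3.mul_right (D.O.mul_mem hηO ht1O))).add
      (h4.mul_right (D.O.mul_mem hηO ht2O))

theorem sec_all {j : ℕ} (hj : 1 ≤ j) (hje : D.e < (p - 1) * j) {u : F}
    (hu : D.Dvd 1 (u - 1)) (hs : D.Sec u j) (k : ℕ) : D.Sec u k := by
  have key : ∀ m : ℕ, D.Sec u (j + m) := by
    intro m
    induction m with
    | zero => exact hs
    | succ m ih =>
      exact kl_step (Nat.le_add_right_of_le hj)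
        (lt_of_lt_of_le hje (Nat.mul_le_mul_left _ (Nat.le_add_right j m))) hu ih
  exact (key k).mono (Nat.le_add_left k j)

end Fermat.Agent.S33.Cech.Data
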