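/-
S33 / Layer II_p.  TASK CECH-6: a line bundle which is trivial modulo all powers of `π` is trivial
(same argument as the end of `Fermat.Agent.S18.Abs.inj_abs_core`).

Proof.  Let `k0` be the torsion bound, `a1 - a2 = π ^ (k0 + 1) y` with `y ∈ O`.
`{s | s ^ p * u ∈ B}` is an additive group when `B` is `p`-root closed (expand `(s + s') ^ p u`;
each `s ^ i s' ^ (p - i) u` has its `p`-th power in `B`).  So `(a1 - a2) ^ p u ∈ B12`, and
`y ^ p u ∈ B12` by `D.sat12` (`y ^ p u ∈ O`).  `π ^ (k0+1) y = a1 + (-a2)`, so `π ^ k0 y = y1 + y2`,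
and `s = a1 - π y1 = a2 + π y2` is a section on both charts, `s ≡ 1 mod π` (`y1 ∈ O` because
`y1 ^ p = (y1 ^ p u) u⁻¹ ∈ O`), so `s ≠ 0`.
-/
import Fermat.Agent.S33.Cech.Defs

set_option autoImplicit false

namespace Fermat.Agent.S33.Cech.Data

variable {p : ℕ} [Fact p.Prime] {F : Type*} [Field F] {D : Data p F}

/-- `{s | s ^ p * u ∈ B}` is stable under addition when `B` is `p`-root closed. -/
theorem add_pow_mul_mem {B : Subring F} (hroot : ∀ z : F, z ^ p ∈ B → z ∈ B) {u y y' : F}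
    (hy : y ^ p * u ∈ B) (hy' : y' ^ p * u ∈ B) : (y + y') ^ p * u ∈ B := by
  rw [add_pow, Finset.sum_mul]
  refine Subring.sum_mem _ fun i hi => ?_
  have hi' : i ≤ p := Nat.lt_succ_iff.mp (Finset.mem_range.mp hi)
  have h1 : y ^ i * y' ^ (p - i) * u ∈ B := by
    apply hroot
    have : (y ^ i * y' ^ (p - i) * u) ^ p = (y ^ p * u) ^ i * (y' ^ p * u) ^ (p - i) := by
      have hu : u ^ p = u ^ i * u ^ (p - i) := by rw [← pow_add, Nat.add_sub_cancel' hi']
      rw [mul_pow, mul_pow, mul_pow, mul_pow, hu, ← pow_mul, ← pow_mul, ← pow_mul, ← pow_mul,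
        mul_comm i p, mul_comm (p - i) p]
      ring
    rw [this]
    exact B.mul_mem (B.pow_mem hy _) (B.pow_mem hy' _)
  have h2 : y ^ i * y' ^ (p - i) * (p.choose i : F) * u
      = (p.choose i : F) * (y ^ i * y' ^ (p - i) * u) := by ring
  rw [h2]
  exact B.mul_mem (natCast_mem B _) h1

/-- multiplying a section by an element of the ring -/
theorem mul_pow_mul_mem {B : Subring F} {c u y : F} (hc : c ∈ B) (hy : y ^ p * u ∈ B) :
    (c * y) ^ p * u ∈ B := by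
  have : (c * y) ^ p * u = c ^ p * (y ^ p * u) := by ring
  rw [this]
  exact B.mul_mem (B.pow_mem hc _) hy

theorem neg_pow_mul_mem {B : Subring F} {u y : F} (hy : y ^ p * u ∈ B) :
    (-y) ^ p * u ∈ B := by
  have := mul_pow_mul_mem (p := p) (B.neg_mem B.one_mem) hy
  simpa using this

/-- iterated saturation of `B12` -/
theorem mem_B12_of_pow_mul (m : ℕ) {z : F} (hz : z ∈ D.O) (h : D.π ^ m * z ∈ D.B12) :
    z ∈ D.B12 := by
  induction m with
  | zero => simpa using h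
  | succ m ih =>
    apply ih
    apply D.sat12 _ (D.O.mul_mem (D.O.pow_mem π_memO _) hz)
    rw [← mul_assoc, ← pow_succ']
    exact h

theorem triv_of_sec {u : F} (hu : D.Dvd 1 (u - 1)) (ht : D.Tors u) (hs : ∀ k, D.Sec u k) :
    D.Triv u := by
  obtain ⟨k0, hk0⟩ := ht
  obtain ⟨a1, a2, h1, h2, h3, h4, y, hy, hay⟩ := hs (k0 + 1)
  have huO : u ∈ D.O := mem_of_dvd hu
  have huinv : u⁻¹ ∈ D.O := inv_mem_of_dvd hu
  have hu0 : u ≠ 0 := ne_zero_of_dvd hu
  have h2' : (-a2) ^ p * u ∈ D.B2 := neg_pow_mul_mem h2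
  -- `y ^ p * u ∈ B12`
  have hy12 : y ^ p * u ∈ D.B12 := by
    have h5 : (a1 + -a2) ^ p * u ∈ D.B12 :=
      add_pow_mul_mem D.root12 (D.B1_le h1) (D.B2_le h2')
    rw [← sub_eq_add_neg, hay] at h5
    apply mem_B12_of_pow_mul ((k0 + 1) * p) (D.O.mul_mem (D.O.pow_mem hy _) huO)
    have : D.π ^ ((k0 + 1) * p) * (y ^ p * u) = (D.π ^ (k0 + 1) * y) ^ p * u := by
      rw [mul_pow, ← pow_mul]
      ring
    rw [this]
    exact h5
  obtain ⟨y1, y2, hy1, hy2, hsum⟩ := hk0 y hy12 (k0 + 1)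
    ⟨a1, -a2, h1, h2', by rw [← hay]; ring⟩
  have hπ1 : D.π ∈ D.B1 := D.A_le1 D.π_mem
  have hπ2 : D.π ∈ D.B2 := D.A_le2 D.π_mem
  have hy1O : y1 ∈ D.O := by
    apply D.rootO
    have : y1 ^ p = (y1 ^ p * u) * u⁻¹ := by
      rw [mul_assoc, mul_inv_cancel₀ hu0, mul_one]
    rw [this]
    exact D.O.mul_mem (B1_leO hy1) huinv
  have hs2 : a1 + -(D.π * y1) = a2 + D.π * y2 := by
    have h6 : a1 - a2 = D.π * (y1 + y2) := by
      rw [hay, ← hsum, pow_succ']
      ring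
    linear_combination h6
  refine ⟨a1 + -(D.π * y1), ?_, ?_, ?_⟩
  · apply ne_zero_of_dvd (D := D)
    have h7 : a1 + -(D.π * y1) - 1 = (a1 - 1) - D.π ^ 1 * y1 := by ring
    rw [h7]
    exact h3.sub (dvd_pow_mul hy1O)
  · exact add_pow_mul_mem D.root1 h1 (neg_pow_mul_mem (mul_pow_mul_mem hπ1 hy1))
  · rw [hs2]
    exact add_pow_mul_mem D.root2 h2 (mul_pow_mul_mem hπ2 hy2)

end Fermat.Agent.S33.Cech.Data
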