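/-
S33 / Layer II_p.  TASK CECH-4: (UP) in the shallow range a class which has a representative of
generic depth `> p j` cannot have Cech depth exactly `j`.

Proof.  Let `a1 - a2 = π ^ j y`, `u_i = a_i ^ p u ∈ B_i`.  By `binom_up` (`a = a2`),
`u1 - u2 ≡ π ^ (p j) y ^ p mod π ^ (p j + 1)`; by `h0_deep` (`M = p j`) `u_i = c + π ^ (p j) h_i`,
`h_i ∈ B_i`, so `h1 - h2 ≡ y ^ p mod π`.  `g ≡ 1 mod π` (Frobenius injective), `r_i = a_i / g`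
satisfies `r_i ^ p = u_i / (g ^ p u) ≡ c + π ^ (p j) h_i mod π ^ (p j + 1)`; `imp_up` gives
`h_i ≡ f_i ^ p + d_i`, `d_i ≡ d_i' ^ p` (`D.perfect`), so `h_i ≡ (f_i + d_i') ^ p`; `D.pr1`, `D.pr2`
give `b_i ∈ B_i` with `b_i ≡ f_i + d_i'`; `y ^ p ≡ (b1 - b2) ^ p`, so `y ≡ b1 - b2`.
New sections `a_i' = a_i (1 - π ^ j b_i)`.
-/
import Fermat.Agent.S33.Cech.H0
import Fermat.Agent.S33.Cech.Imp

set_option autoImplicit false

namespace Fermat.Agent.S33.Cech.Data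

variable {p : ℕ} [Fact p.Prime] {F : Type*} [Field F] {D : Data p F}

/-- `g ^ p u ≡ 1`, `u ≡ 1` imply `g ≡ 1` modulo `π`. -/
theorem dvd_sub_one_of_pow_mul {u g : F} (hu : D.Dvd 1 (u - 1)) (hg : D.Dvd 1 (g ^ p * u - 1)) :
    D.Dvd 1 (g - 1) := by
  have hu0 : u ≠ 0 := ne_zero_of_dvd hu
  have hgp : g ^ p ∈ D.O := by
    have h1 : g ^ p = (g ^ p * u) * u⁻¹ := by field_simp
    rw [h1]
    exact D.O.mul_mem (mem_of_dvd hg) (inv_mem_of_dvd hu)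
  have hgO : g ∈ D.O := D.rootO g hgp
  have h2 : D.Dvd 1 (g ^ p - 1 ^ p) := by
    have h3 : g ^ p - 1 ^ p = (g ^ p * u - 1) - g ^ p * (u - 1) := by ring
    rw [h3]
    exact hg.sub (Dvd.mul_left hgp hu)
  exact dvd_sub_of_pow hgO D.O.one_mem h2

/-- the `p`-th power of `a / g` is `a ^ p u` up to the depth of `g ^ p u - 1`. -/
theorem dvd_div_pow_sub {M : ℕ} (hM : 1 ≤ M) {u g a : F} (hu : D.Dvd 1 (u - 1))
    (hg : D.Dvd M (g ^ p * u - 1)) (ha : a ^ p * u ∈ D.O) :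
    D.Dvd M ((a * g⁻¹) ^ p - a ^ p * u) := by
  have hu0 : u ≠ 0 := ne_zero_of_dvd hu
  have hg1 : D.Dvd 1 (g ^ p * u - 1) := hg.mono hM
  have hw0 : g ^ p * u ≠ 0 := ne_zero_of_dvd hg1
  have hg0 : g ≠ 0 := by
    rintro rfl
    apply hw0
    rw [zero_pow (Fact.out : p.Prime).ne_zero, zero_mul]
  have hgp0 : g ^ p ≠ 0 := pow_ne_zero _ hg0
  have h1 : (a * g⁻¹) ^ p - a ^ p * u = -((a ^ p * u) * (g ^ p * u)⁻¹ * (g ^ p * u - 1)) := by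
    rw [mul_pow, inv_pow]
    generalize g ^ p = G at hgp0
    field_simp
    ring
  rw [h1]
  exact (Dvd.mul_left (D.O.mul_mem ha (inv_mem_of_dvd hg1)) hg).neg

/-- one chart: `h ≡ b ^ p`-type statement, producing the element of the chart. -/
theorem exists_chart_root {j : ℕ} (hj : 1 ≤ j) (hje : (p - 1) * j < D.e) {B : Subring F}
    (hBO : B ≤ D.O)
    (hpr : ∀ c ∈ D.O, ∀ b ∈ B, (∃ t ∈ D.O, c ^ p - b = D.π * t) →
      ∃ b' ∈ B, ∃ t ∈ D.O, c - b' = D.π * t)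
    {u g a c h : F} (hu : D.Dvd 1 (u - 1)) (hg : D.Dvd (p * j + 1) (g ^ p * u - 1))
    (ha : D.Dvd 1 (a - 1)) (hc : c ∈ D.A) (hh : h ∈ B)
    (hau : a ^ p * u = c + D.π ^ (p * j) * h) :
    ∃ f ∈ D.O, ∃ b ∈ B, D.Dvd 1 (h - f ^ p) ∧ D.Dvd 1 (f - b) := by
  have hg1 : D.Dvd 1 (g - 1) := dvd_sub_one_of_pow_mul hu (hg.mono (by omega))
  have hauO : a ^ p * u ∈ D.O := by
    rw [hau]
    exact D.O.add_mem (A_leO hc) (D.O.mul_mem (D.O.pow_mem π_memO _) (hBO hh))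
  have hr : D.Dvd 1 (a * g⁻¹ - 1) := by
    have hg0 : g ≠ 0 := ne_zero_of_dvd hg1
    have h1 : a * g⁻¹ - 1 = ((a - 1) - (g - 1)) * g⁻¹ := by
      field_simp
      ring
    rw [h1]
    exact Dvd.mul_right (ha.sub hg1) (inv_mem_of_dvd hg1)
  have H : D.Dvd (p * j + 1) ((a * g⁻¹) ^ p - c - D.π ^ (p * j) * h) := by
    have h1 := dvd_div_pow_sub (M := p * j + 1) (by omega) hu hg hauO
    have h2 : (a * g⁻¹) ^ p - c - D.π ^ (p * j) * h = (a * g⁻¹) ^ p - a ^ p * u := by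
      rw [hau]; ring
    rw [h2]
    exact h1
  obtain ⟨f, hf, d, hd, hfd⟩ := imp_up hj hje hr hc (hBO hh) H
  obtain ⟨d', hd', t, ht, hdt⟩ := D.perfect d hd
  have hd'O : d' ∈ D.O := A_leO hd'
  have hsum : D.Dvd 1 (h - (f + d') ^ p) := by
    have h1 := dvd_add_pow (D := D) hf hd'O
    have h2 : D.Dvd 1 (d' ^ p - d) := dvd_one_iff.mpr ⟨t, ht, hdt⟩
    have h3 : h - (f + d') ^ p = (h - f ^ p - d) - ((f + d') ^ p - f ^ p - d' ^ p) - (d' ^ p - d) := by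
      ring
    rw [h3]
    exact (hfd.sub h1).sub h2
  obtain ⟨b, hb, t', ht', hbt⟩ := hpr (f + d') (D.O.add_mem hf hd'O) h hh (by
    have := dvd_one_iff.mp hsum.neg
    simpa using this)
  exact ⟨f + d', D.O.add_mem hf hd'O, b, hb, hsum, dvd_one_iff.mpr ⟨t', ht', hbt⟩⟩

theorem up_step {j : ℕ} (hj : 1 ≤ j) (hje : (p - 1) * j < D.e) {u g : F}
    (hu : D.Dvd 1 (u - 1)) (hs : D.Sec u j) (hg : D.Dvd (p * j + 1) (g ^ p * u - 1)) :
    D.Sec u (j + 1) := by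
  obtain ⟨a1, a2, h1, h2, ha1, ha2, y, hy, hy12⟩ := hs
  have ha1e : a1 = a2 + D.π ^ j * y := by linear_combination hy12
  have ha1O : a1 ∈ D.O := mem_of_dvd ha1
  have ha2O : a2 ∈ D.O := mem_of_dvd ha2
  -- the binomial expansion
  have hbin := binom_up hj hje ha2O hy hu
  rw [← ha1e] at hbin
  have hdiff : D.Dvd (p * j) (a1 ^ p * u - a2 ^ p * u) := by
    have h3 : a1 ^ p * u - a2 ^ p * u =
        ((a1 ^ p - a2 ^ p) * u - D.π ^ (p * j) * y ^ p) + D.π ^ (p * j) * y ^ p := by ring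
    rw [h3]
    exact (hbin.mono (by omega)).add (dvd_pow_mul (D.O.pow_mem hy p))
  obtain ⟨c, hc, t1, ht1, t2, ht2, hu1, hu2⟩ := h0_deep (p * j) h1 h2 hdiff
  have hty : D.Dvd 1 (t1 - t2 - y ^ p) := by
    apply Dvd.of_pow_mul (M' := p * j)
    have h3 : D.π ^ (p * j) * (t1 - t2 - y ^ p) =
        (a1 ^ p - a2 ^ p) * u - D.π ^ (p * j) * y ^ p := by
      have : (a1 ^ p - a2 ^ p) * u = a1 ^ p * u - a2 ^ p * u := by ring
      rw [this, hu1, hu2]; ring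
    rw [h3]
    exact hbin
  obtain ⟨f1, hf1, b1, hb1, hf1p, hfb1⟩ :=
    exists_chart_root hj hje B1_leO D.pr1 hu hg ha1 hc ht1 hu1
  obtain ⟨f2, hf2, b2, hb2, hf2p, hfb2⟩ :=
    exists_chart_root hj hje B2_leO D.pr2 hu hg ha2 hc ht2 hu2
  have hyf : D.Dvd 1 (y - (f1 - f2)) := by
    apply dvd_sub_of_pow hy (D.O.sub_mem hf1 hf2)
    have h3 := dvd_add_pow (D := D) (D.O.sub_mem hf1 hf2) hf2
    rw [sub_add_cancel] at h3
    have h4 : y ^ p - (f1 - f2) ^ p =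
        -(t1 - t2 - y ^ p) + ((t1 - f1 ^ p) - (t2 - f2 ^ p)) + (f1 ^ p - (f1 - f2) ^ p - f2 ^ p) := by
      ring
    rw [h4]
    exact (hty.neg.add (hf1p.sub hf2p)).add h3
  have hyb : D.Dvd 1 (y - (b1 - b2)) := by
    have h3 : y - (b1 - b2) = (y - (f1 - f2)) + (f1 - b1) - (f2 - b2) := by ring
    rw [h3]
    exact (hyf.add hfb1).sub hfb2
  have hb1O : b1 ∈ D.O := B1_leO hb1
  have hb2O : b2 ∈ D.O := B2_leO hb2
  have hπj : ∀ {x : F}, x ∈ D.O → D.Dvd 1 (D.π ^ j * x) := fun hx =>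
    (dvd_pow_mul (M := j) hx).mono hj
  refine ⟨a1 * (1 - D.π ^ j * b1), a2 * (1 - D.π ^ j * b2), ?_, ?_, ?_, ?_, ?_⟩
  · have h3 : (a1 * (1 - D.π ^ j * b1)) ^ p * u = a1 ^ p * u * (1 - D.π ^ j * b1) ^ p := by
      rw [mul_pow]; ring
    rw [h3]
    exact D.B1.mul_mem h1 (D.B1.pow_mem (D.B1.sub_mem D.B1.one_mem
      (D.B1.mul_mem (D.B1.pow_mem (D.A_le1 D.π_mem) _) hb1)) _)
  · have h3 : (a2 * (1 - D.π ^ j * b2)) ^ p * u = a2 ^ p * u * (1 - D.π ^ j * b2) ^ p := by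
      rw [mul_pow]; ring
    rw [h3]
    exact D.B2.mul_mem h2 (D.B2.pow_mem (D.B2.sub_mem D.B2.one_mem
      (D.B2.mul_mem (D.B2.pow_mem (D.A_le2 D.π_mem) _) hb2)) _)
  · have h3 : a1 * (1 - D.π ^ j * b1) - 1 = (a1 - 1) - D.π ^ j * (a1 * b1) := by ring
    rw [h3]
    exact ha1.sub (hπj (D.O.mul_mem ha1O hb1O))
  · have h3 : a2 * (1 - D.π ^ j * b2) - 1 = (a2 - 1) - D.π ^ j * (a2 * b2) := by ring
    rw [h3]
    exact ha2.sub (hπj (D.O.mul_mem ha2O hb2O))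
  · have h3 : a1 * (1 - D.π ^ j * b1) - a2 * (1 - D.π ^ j * b2) =
        D.π ^ j * ((y - (b1 - b2)) - (a1 - 1) * b1 + (a2 - 1) * b2) := by
      linear_combination hy12
    rw [h3]
    exact Dvd.pow_mul ((hyb.sub (Dvd.mul_right ha1 hb1O)).add (Dvd.mul_right ha2 hb2O))

end Fermat.Agent.S33.Cech.Data
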