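/-
S33 / Layer II_p (owner helper73): the two main theorems.

* `main_eq`  : a class which has representatives of generic depth `> p j` for all `j` below the
  critical depth `j0 = e / (p - 1)` is multiplied by `c` by every automorphism `σ` which is trivial
  on the special fibre and multiplies `π ^ j0` by `c` to first order (`σ` in the inertia group,
  `c` its cyclotomic character mod `p`).  Valid for several vertical valuations.
* `main_klp` : (one vertical valuation) a class with a representative of generic depth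
  `> p e / (p - 1)` is trivial.
-/
import Fermat.Agent.S33.Cech.UpStep
import Fermat.Agent.S33.Cech.KLStep
import Fermat.Agent.S33.Cech.Limit
import Fermat.Agent.S33.Cech.Eq
import Fermat.Agent.S33.Cech.AsStep

set_option autoImplicit false

namespace Fermat.Agent.S33.Cech.Data

variable {p : ℕ} [Fact p.Prime] {F : Type*} [Field F] {D : Data p F}

/-- climbing up to the critical depth -/
theorem sec_of_deep {u : F} (hu : D.Dvd 1 (u - 1)) (hs : D.Sec u 1)
    (hg : ∀ j, 1 ≤ j → (p - 1) * j < D.e → ∃ g : F, D.Dvd (p * j + 1) (g ^ p * u - 1)) :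
    ∀ j, 1 ≤ j → (p - 1) * (j - 1) < D.e → D.Sec u j := by
  intro j hj
  induction j, hj using Nat.le_induction with
  | base => intro _; exact hs
  | succ j hj ih =>
    intro h
    rw [Nat.add_sub_cancel] at h
    obtain ⟨g, hg'⟩ := hg j hj h
    refine up_step hj h hu (ih ?_) hg'
    exact lt_of_le_of_lt (Nat.mul_le_mul_left _ (Nat.sub_le _ _)) h

theorem main_eq {j0 : ℕ} (hj0 : (p - 1) * j0 = D.e) (σ : F ≃+* F) (hσO : ∀ z ∈ D.O, σ z ∈ D.O)
    (hσ1 : ∀ z ∈ D.B1, σ z ∈ D.B1) (hσ2 : ∀ z ∈ D.B2, σ z ∈ D.B2)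
    (hσred : ∀ z ∈ D.O, D.Dvd 1 (σ z - z)) {c : ℕ} (hc : c ≤ p)
    (hσπ : D.Dvd (j0 + 1) (σ (D.π ^ j0) - c * D.π ^ j0)) {u : F}
    (hu : D.Dvd 1 (u - 1)) (hs : D.Sec u 1)
    (hg : ∀ j, 1 ≤ j → (p - 1) * j < D.e → ∃ g : F, D.Dvd (p * j + 1) (g ^ p * u - 1))
    (ht : D.Tors (σ u * u ^ (p - c))) :
    D.Triv (σ u * u ^ (p - c)) := by
  have hp : 2 ≤ p := (Fact.out : p.Prime).two_le
  have hj1 : 1 ≤ j0 := by
    rcases Nat.eq_zero_or_pos j0 with h | h
    · have := D.e_pos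
      rw [← hj0, h] at this
      simp at this
    · exact h
  have hp1 : 0 < p - 1 := by omega
  have h1 : D.Sec u j0 := by
    refine sec_of_deep hu hs hg j0 hj1 ?_
    rw [← hj0]
    exact Nat.mul_lt_mul_of_pos_left (by omega) hp1
  obtain ⟨hu', hs'⟩ := eq_step hj1 σ hσO hσ1 hσ2 hσred hc hσπ hu h1
  refine triv_of_sec hu' ht (sec_all (j := j0 + 1) (by omega) ?_ hu' hs')
  rw [← hj0]
  exact Nat.mul_lt_mul_of_pos_left (by omega) hp1

theorem main_klp {j0 : ℕ} (hj0 : (p - 1) * j0 = D.e)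
    (hconst : ∀ z ∈ D.O, ∀ d ∈ D.A, D.Dvd 1 (z ^ p + D.η * z - d) → ∃ d' ∈ D.A, D.Dvd 1 (z - d'))
    (has1 : ∀ c ∈ D.O, ∀ b ∈ D.B1, D.Dvd 1 (c ^ p + D.η * c - b) → ∃ b' ∈ D.B1, D.Dvd 1 (c - b'))
    (has2 : ∀ c ∈ D.O, ∀ b ∈ D.B2, D.Dvd 1 (c ^ p + D.η * c - b) → ∃ b' ∈ D.B2, D.Dvd 1 (c - b'))
    {u g : F} (hu : D.Dvd 1 (u - 1)) (hs : D.Sec u 1)
    (hg : D.Dvd (p * j0 + 1) (g ^ p * u - 1)) (ht : D.Tors u) :
    D.Triv u := by
  have hp : 2 ≤ p := (Fact.out : p.Prime).two_le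
  have hj1 : 1 ≤ j0 := by
    rcases Nat.eq_zero_or_pos j0 with h | h
    · have := D.e_pos
      rw [← hj0, h] at this
      simp at this
    · exact h
  have hp1 : 0 < p - 1 := by omega
  have h1 : D.Sec u j0 := by
    refine sec_of_deep hu hs (fun j _ hj => ⟨g, hg.mono ?_⟩) j0 hj1 ?_
    · have : j < j0 := by
        rw [← hj0] at hj
        exact lt_of_mul_lt_mul_left hj (Nat.zero_le _)
      have : p * j ≤ p * j0 := Nat.mul_le_mul_left _ this.le
      omega
    · rw [← hj0]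
      exact Nat.mul_lt_mul_of_pos_left (by omega) hp1
  have h2 : D.Sec u (j0 + 1) := as_step hj1 hj0 hconst has1 has2 hu h1 hg
  refine triv_of_sec hu ht (sec_all (j := j0 + 1) (by omega) ?_ hu h2)
  rw [← hj0]
  exact Nat.mul_lt_mul_of_pos_left (by omega) hp1

end Fermat.Agent.S33.Cech.Data
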