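/-
S33 / Layer II_p (owner helper73): the two abstract theorems for good reduction, in the language of
KL-A (`Fermat.Agent.S18`).
-/
import Fermat.Agent.S33.Cech.Main
import Fermat.Agent.S33.Cech.Good.Sec
import Fermat.Agent.S33.Cech.Good.AsClosed

set_option autoImplicit false

namespace Fermat.Agent.S33.Cech

open Fermat.Agent.S18 Fermat.Agent.S18.Abs

variable {F : Type*} [Field F] {Ow : ValuationSubring F} {ϖ : F}

/-- **(KLp), abstract form.**  Good reduction: a function `h ≡ 1` whose divisor is divisible by `p`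
on both charts and which is `≡ g ^ (-p)` modulo `ϖ ^ (p j0 + 1)`, `(p-1) j0 = e`
(generic depth `> p e / (p-1)`), is a `p`-th power up to a global section. -/
theorem klp_good {p : ℕ} (hp : p.Prime) (hϖ : IsUnif Ow ϖ) {A₀ B₁ B₂ : Subring F} {x : F}
    (hϖA : ϖ ∈ A₀) (hc : IsCover A₀ x B₁ B₂) (h₁ : IsChart Ow ϖ B₁) (h₂ : IsChart Ow ϖ B₂)
    {η : F} {e : ℕ} (hP : IsGoodP p Ow ϖ A₀ B₁ B₂ η e) {j0 : ℕ} (hj0 : (p - 1) * j0 = e)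
    (hconst : ∀ z ∈ Ow, ∀ d ∈ A₀, (z ^ p + η * z - d) / ϖ ∈ Ow → ∃ d' ∈ A₀, (z - d') / ϖ ∈ Ow)
    {h g : F} (hh : (h - 1) / ϖ ∈ Ow) (r₁ : RootData B₁ ϖ p h) (r₂ : RootData B₂ ϖ p h)
    (hg : (g ^ p * h - 1) / ϖ ^ (p * j0 + 1) ∈ Ow) :
    ∃ s : F, s ≠ 0 ∧ s ^ p * h ∈ B₁ ∧ s ^ p * h ∈ B₂ := by
  have : Fact p.Prime := ⟨hp⟩
  obtain ⟨D, hO, hA, hB1, hB2, hB12, hπ, hη, he⟩ := exists_goodData hp hϖ hϖA hc h₁ h₂ hP
  have key : D.Triv h := by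
    refine Data.main_klp (j0 := j0) (g := g) (by rw [he]; exact hj0) ?_ ?_ ?_ ?_
      (sec_one_of_rootData hp hϖ h₁ h₂ hO hB1 hB2 hπ hh r₁ r₂) ?_
      (tors_of_rootData hp hϖ hϖA hc h₁ h₂ hB1 hB2 hB12 hπ r₁)
    · intro z hz d hd hzd
      rw [hO] at hz
      rw [hA] at hd
      rw [dvd_iff hO hπ, pow_one, hη] at hzd
      obtain ⟨d', hd', h'⟩ := hconst z hz d hd hzd
      exact ⟨d', by rw [hA]; exact hd', by rw [dvd_iff hO hπ, pow_one]; exact h'⟩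
    · intro c hc' b hb hcb
      rw [hO] at hc'
      rw [hB1] at hb
      rw [dvd_iff hO hπ, pow_one, hη] at hcb
      obtain ⟨b', hb', h'⟩ := as_closed hp.one_lt hϖ h₁ (hc.le₁ hP.η_mem) c hc' b hb hcb
      exact ⟨b', by rw [hB1]; exact hb', by rw [dvd_iff hO hπ, pow_one]; exact h'⟩
    · intro c hc' b hb hcb
      rw [hO] at hc'
      rw [hB2] at hb
      rw [dvd_iff hO hπ, pow_one, hη] at hcb
      obtain ⟨b', hb', h'⟩ := as_closed hp.one_lt hϖ h₂ (hc.le₂ hP.η_mem) c hc' b hb hcb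
      exact ⟨b', by rw [hB2]; exact hb', by rw [dvd_iff hO hπ, pow_one]; exact h'⟩
    · rw [dvd_iff hO hπ, pow_one]; exact hh
    · rw [dvd_iff hO hπ]; exact hg
  obtain ⟨s, hs0, hs1, hs2⟩ := key
  exact ⟨s, hs0, by rw [← hB1]; exact hs1, by rw [← hB2]; exact hs2⟩

/-- **(EQ), abstract form, good reduction.**  If `h ≡ 1` has generic depth `≥ p e / (p-1)`
(a representative `≡ 1` modulo `ϖ ^ (p j0)`), then `σ h * h ^ (p - c)` is trivial for every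
automorphism `σ` trivial on the special fibre with `σ (ϖ ^ j0) ≡ c ϖ ^ j0`. -/
theorem eq_good {p : ℕ} (hp : p.Prime) (hϖ : IsUnif Ow ϖ) {A₀ B₁ B₂ : Subring F} {x : F}
    (hϖA : ϖ ∈ A₀) (hc : IsCover A₀ x B₁ B₂) (h₁ : IsChart Ow ϖ B₁) (h₂ : IsChart Ow ϖ B₂)
    {η : F} {e : ℕ} (hP : IsGoodP p Ow ϖ A₀ B₁ B₂ η e) {j0 : ℕ} (hj0 : (p - 1) * j0 = e)
    (σ : F ≃+* F) (hσO : ∀ z ∈ Ow, σ z ∈ Ow) (hσ1 : ∀ z ∈ B₁, σ z ∈ B₁) (hσ2 : ∀ z ∈ B₂, σ z ∈ B₂)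
    (hσred : ∀ z ∈ Ow, (σ z - z) / ϖ ∈ Ow) {c : ℕ} (hcp : c ≤ p)
    (hσπ : (σ (ϖ ^ j0) - c * ϖ ^ j0) / ϖ ^ (j0 + 1) ∈ Ow)
    {h g : F} (hh : (h - 1) / ϖ ∈ Ow) (r₁ : RootData B₁ ϖ p h) (r₂ : RootData B₂ ϖ p h)
    (r₁' : RootData B₁ ϖ p (σ h * h ^ (p - c)))
    (hg : (g ^ p * h - 1) / ϖ ^ (p * j0) ∈ Ow) :
    ∃ s : F, s ≠ 0 ∧ s ^ p * (σ h * h ^ (p - c)) ∈ B₁ ∧ s ^ p * (σ h * h ^ (p - c)) ∈ B₂ := by
  have : Fact p.Prime := ⟨hp⟩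
  obtain ⟨D, hO, hA, hB1, hB2, hB12, hπ, hη, he⟩ := exists_goodData hp hϖ hϖA hc h₁ h₂ hP
  have key : D.Triv (σ h * h ^ (p - c)) := by
    refine Data.main_eq (j0 := j0) (by rw [he]; exact hj0) σ ?_ ?_ ?_ ?_ hcp ?_ ?_
      (sec_one_of_rootData hp hϖ h₁ h₂ hO hB1 hB2 hπ hh r₁ r₂) ?_
      (tors_of_rootData hp hϖ hϖA hc h₁ h₂ hB1 hB2 hB12 hπ r₁')
    · intro z hz; rw [hO] at hz ⊢; exact hσO z hz
    · intro z hz; rw [hB1] at hz ⊢; exact hσ1 z hz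
    · intro z hz; rw [hB2] at hz ⊢; exact hσ2 z hz
    · intro z hz; rw [hO] at hz; rw [dvd_iff hO hπ, pow_one]; exact hσred z hz
    · rw [dvd_iff hO hπ, hπ]; exact hσπ
    · rw [dvd_iff hO hπ, pow_one]; exact hh
    · intro j _ hj
      refine ⟨g, Data.Dvd.mono ?_ ((dvd_iff hO hπ (p * j0) _).2 hg)⟩
      rw [he, ← hj0] at hj
      have h1 : j < j0 := lt_of_mul_lt_mul_left hj (Nat.zero_le _)
      have h2 : p * (j + 1) ≤ p * j0 := Nat.mul_le_mul_left _ h1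
      have h3 : 1 ≤ p := hp.pos
      nlinarith
  obtain ⟨s, hs0, hs1, hs2⟩ := key
  exact ⟨s, hs0, by rw [← hB1]; exact hs1, by rw [← hB2]; exact hs2⟩

end Fermat.Agent.S33.Cech
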